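import Fermat.Agent.S19.H.Integral

/-! # S19 / H-8 : characters in `𝒮_G(Ω)` give (REP)   (export (H3)) -/

set_option autoImplicit false
set_option linter.style.haveILetI false

noncomputable section

namespace Fermat.Agent.S19.H

section abstract

variable {K X Γ : Type*} [Field K] [AddCommGroup Γ] {m : ℕ}

theorem eq_of_sum_smul_eq {b : Fin m → X → K} (hb : LinearIndependent K b) {x y : Fin m → K}
    (h : ∑ i, x i • b i = ∑ i, y i • b i) : x = y := by
  ext i
  have h1 : ∑ i, (x i - y i) • b i = 0 := by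
    simp only [sub_smul, Finset.sum_sub_distrib, h, sub_self]
  exact sub_eq_zero.mp (Fintype.linearIndependent_iff.mp hb _ h1 i)

/-- the regular representation on a lattice of functions. -/
theorem regRep_props (b : Fin m → X → K) (hb : LinearIndependent K b)
    (hone : ∃ c : Fin m → K, (1 : X → K) = ∑ k, c k • b k)
    (χ : Γ → X → K) (h0 : χ 0 = 1) (hadd : ∀ P Q, χ (P + Q) = χ P * χ Q)
    (hinj : Function.Injective χ)
    (ρ : Γ → Matrix (Fin m) (Fin m) K) (hρ : ∀ P j, χ P * b j = ∑ i, ρ P i j • b i) :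
    ρ 0 = 1 ∧ (∀ P Q, ρ (P + Q) = ρ P * ρ Q) ∧ Function.Injective ρ := by
  classical
  refine ⟨?_, ?_, ?_⟩
  · ext i j
    have h1 : ∑ i, ρ 0 i j • b i = ∑ i, (1 : Matrix (Fin m) (Fin m) K) i j • b i := by
      rw [← hρ, h0, one_mul]
      simp [Matrix.one_apply, ite_smul]
    exact congrFun (eq_of_sum_smul_eq hb h1) i
  · intro P Q
    ext i j
    have h1 : ∑ i, ρ (P + Q) i j • b i = ∑ i, (ρ P * ρ Q) i j • b i := by
      rw [← hρ, hadd, mul_assoc, hρ Q j, Finset.mul_sum]
      simp only [mul_smul_comm, hρ P, Finset.smul_sum, Matrix.mul_apply, Finset.sum_smul]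
      rw [Finset.sum_comm]
      refine Finset.sum_congr rfl fun i _ => Finset.sum_congr rfl fun k _ => ?_
      rw [smul_smul, mul_comm]
    exact congrFun (eq_of_sum_smul_eq hb h1) i
  · intro P Q hPQ
    apply hinj
    obtain ⟨c, hc⟩ := hone
    rw [← mul_one (χ P), ← mul_one (χ Q), hc, Finset.mul_sum, Finset.mul_sum]
    refine Finset.sum_congr rfl fun k _ => ?_
    rw [mul_smul_comm, mul_smul_comm, hρ, hρ, hPQ]

end abstract

variable {ℓ : ℕ} [Fact ℓ.Prime]

/-- a finitely generated algebra of equivariant functions has a `ℤ_(ℓ)`-basis which is linearly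
independent over `ℚ̄`. -/
theorem exists_basis_of_equivariant {X : Type*} (act : GQ → X → X)
    (hact : ∀ σ, Function.Surjective (act σ)) (H : Subalgebra (Rl ℓ) (X → Qb))
    (fg : H.toSubmodule.FG) (heq : ∀ f ∈ H, ∀ (σ : GQ) (x : X), f (act σ x) = σ (f x)) :
    ∃ (m : ℕ) (b : Module.Basis (Fin m) (Rl ℓ) H),
      LinearIndependent Qb (fun i => ((b i : H) : X → Qb)) := by
  haveI : Module.Finite (Rl ℓ) H := Module.Finite.iff_fg.mpr fg
  haveI : Module.IsTorsionFree (Rl ℓ) H := by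
    apply Module.IsTorsionFree.of_smul_eq_zero
    intro r m hrm
    by_cases hr : r = 0
    · exact Or.inl hr
    right
    apply Subtype.ext
    ext P
    have h1 : (r • (m : X → Qb)) P = 0 := congrFun (congrArg Subtype.val hrm) P
    rw [Pi.smul_apply, Algebra.smul_def] at h1
    rcases mul_eq_zero.mp h1 with h2 | h2
    · exact absurd (algebraMap_Rl_injective ℓ (by rw [h2, map_zero])) hr
    · exact h2
  haveI : Module.Free (Rl ℓ) H := inferInstance
  let b := Module.finBasis (Rl ℓ) H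
  refine ⟨_, b, ?_⟩
  apply linearIndependent_of_equivariant act hact
  · intro i σ x
    exact heq _ (b i).2 σ x
  · rw [← LinearIndependent.iff_fractionRing (Rl ℓ) ℚ]
    exact b.linearIndependent.map' H.val.toLinearMap
      (LinearMap.ker_eq_bot.mpr Subtype.val_injective)

theorem smul_eq_coe_smul {A : ValuationSubring Qb} {X : Type*} (a : A) (f : X → Qb) :
    a • f = (a : Qb) • f := rfl

/-- **(H3)** -/
theorem hasRep_of_char (A : ValuationSubring Qb) (hA : A.LiesOverPrime ℓ) {Ω Γ' : Type}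
    [Finite Ω] [AddCommGroup Γ'] [Finite Γ'] (act : GQ → Ω → Ω)
    (hact : ∀ σ, Function.Bijective (act σ)) (act' : GQ → Γ' → Γ') (χ : Γ' → Ω → Qb)
    (h0 : χ 0 = 1) (hadd : ∀ P Q, χ (P + Q) = χ P * χ Q) (hinj : Function.Injective χ)
    (heq : ∀ σ Q ω, χ (act' σ Q) (act σ ω) = σ (χ Q ω)) (hS : ∀ Q, χ Q ∈ SG A act) :
    HasRep A Γ' act' := by
  classical
  haveI := Fintype.ofFinite Γ'
  -- finitely many equivariant functions suffice
  have h1 : ∀ Q, ∃ T : Finset (Ω → Qb), (T : Set (Ω → Qb)) ⊆ {h | IsEqFun A act h} ∧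
      χ Q ∈ Submodule.span A (T : Set (Ω → Qb)) := fun Q =>
    Submodule.mem_span_finite_of_mem_span (hS Q)
  choose T hT hχT using h1
  set S : Set (Ω → Qb) := ⋃ Q, (T Q : Set (Ω → Qb)) with hSdef
  have hSfin : S.Finite := Set.finite_iUnion fun Q => (T Q).finite_toSet
  have hSeq : ∀ f ∈ S, IsEqFun A act f := by
    intro f hf
    obtain ⟨Q, hQ⟩ := Set.mem_iUnion.mp hf
    exact hT Q hQ
  set O : Subalgebra (Rl ℓ) (Ω → Qb) := Algebra.adjoin (Rl ℓ) S with hO
  have hOfg : O.toSubmodule.FG := by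
    apply fg_adjoin_of_finite hSfin
    intro f hf
    apply isIntegral_pi
    intro ω
    apply isIntegral_of_forall_mem hA
    intro σ
    rw [← (hSeq f hf).2]
    exact (hSeq f hf).1 _
  have hOeq : ∀ f ∈ O, ∀ (σ : GQ) (x : Ω), f (act σ x) = σ (f x) := by
    intro f hf σ x
    induction hf using Algebra.adjoin_induction with
    | mem f hf => exact (hSeq f hf).2 σ x
    | algebraMap r => exact (σ.commutes (r : ℚ)).symm
    | add f g _ _ hf hg => rw [Pi.add_apply, Pi.add_apply, hf, hg, map_add]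
    | mul f g _ _ hf hg => rw [Pi.mul_apply, Pi.mul_apply, hf, hg, map_mul]
  obtain ⟨m, b, hb⟩ := exists_basis_of_equivariant act (fun σ => (hact σ).2) O hOfg hOeq
  set bb : Fin m → Ω → Qb := fun i => ((b i : O) : Ω → Qb) with hbb
  -- the `A`-span of `O`
  have hrepr : ∀ f (hf : f ∈ O), f = ∑ k, algebraMap (Rl ℓ) Qb (b.repr ⟨f, hf⟩ k) • bb k := by
    intro f hf
    have h2 : ((∑ i, (b.repr ⟨f, hf⟩) i • b i : O) : Ω → Qb) = f :=
      congrArg (Subtype.val) (b.sum_repr ⟨f, hf⟩)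
    rw [AddSubmonoidClass.coe_finsetSum] at h2
    conv_lhs => rw [← h2]
    refine Finset.sum_congr rfl fun k _ => ?_
    rw [algebraMap_smul]
    rfl
  have hL1 : ∀ f ∈ Submodule.span A (O : Set (Ω → Qb)),
      ∃ c : Fin m → Qb, (∀ k, c k ∈ A) ∧ f = ∑ k, c k • bb k := by
    intro f hf
    induction hf using Submodule.span_induction with
    | mem f hf => exact ⟨_, fun k => algebraMap_Rl_mem hA _, hrepr f hf⟩
    | zero => exact ⟨0, fun k => A.zero_mem, by simp⟩
    | add f g _ _ hf hg =>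
      obtain ⟨c, hc, rfl⟩ := hf
      obtain ⟨d, hd, rfl⟩ := hg
      exact ⟨c + d, fun k => A.add_mem _ _ (hc k) (hd k), by
        simp only [Pi.add_apply, add_smul, Finset.sum_add_distrib]⟩
    | smul a f _ hf =>
      obtain ⟨c, hc, rfl⟩ := hf
      refine ⟨fun k => (a : Qb) * c k, fun k => A.mul_mem _ _ a.2 (hc k), ?_⟩
      rw [smul_eq_coe_smul, Finset.smul_sum]
      simp only [smul_smul]
  have hL2 : ∀ f ∈ Submodule.span A (O : Set (Ω → Qb)), ∀ g ∈ O,
      f * g ∈ Submodule.span A (O : Set (Ω → Qb)) := by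
    intro f hf g hg
    induction hf using Submodule.span_induction with
    | mem f hf => exact Submodule.subset_span (O.mul_mem hf hg)
    | zero => rw [zero_mul]; exact zero_mem _
    | add f f' _ _ h h' => rw [add_mul]; exact add_mem h h'
    | smul a f _ h => rw [smul_mul_assoc]; exact Submodule.smul_mem _ _ h
  have hχ : ∀ Q, χ Q ∈ Submodule.span A (O : Set (Ω → Qb)) := by
    intro Q
    refine Submodule.span_mono ?_ (hχT Q)
    intro f hf
    exact Algebra.subset_adjoin (Set.mem_iUnion.mpr ⟨Q, hf⟩)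
  have h3 : ∀ Q j, ∃ c : Fin m → Qb, (∀ k, c k ∈ A) ∧ χ Q * bb j = ∑ k, c k • bb k :=
    fun Q j => hL1 _ (hL2 _ (hχ Q) _ (b j).2)
  choose c hcA hc using h3
  set ρ : Γ' → Matrix (Fin m) (Fin m) Qb := fun Q => Matrix.of fun i j => c Q j i with hρdef
  have hρ : ∀ P j, χ P * bb j = ∑ i, ρ P i j • bb i := fun P j => hc P j
  have hbeq : ∀ j (σ : GQ) (x : Ω), bb j (act σ x) = σ (bb j x) := fun j => hOeq _ (b j).2
  obtain ⟨p1, p2, p3⟩ := regRep_props bb hb ⟨_, hrepr 1 O.one_mem⟩ χ h0 hadd hinj ρ hρ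
  refine ⟨m, ρ, p1, p2, p3, fun P i j => hcA P j i, ?_⟩
  intro σ P i j
  have h4 : ∑ i, ρ (act' σ P) i j • bb i = ∑ i, σ (ρ P i j) • bb i := by
    rw [← hρ]
    ext x
    obtain ⟨ω, rfl⟩ := (hact σ).2 x
    rw [Pi.mul_apply, heq, hbeq, ← map_mul, ← Pi.mul_apply, hρ, Finset.sum_apply,
      Finset.sum_apply, map_sum]
    refine Finset.sum_congr rfl fun i _ => ?_
    rw [Pi.smul_apply, Pi.smul_apply, smul_eq_mul, smul_eq_mul, map_mul, hbeq]
  exact congrFun (eq_of_sum_smul_eq hb h4) i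

end Fermat.Agent.S19.H
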