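import Fermat.Agent.S19.H.Lat

/-! # S19 / H-2 : comultiplication, counit and antipode of a lattice of functions on a group -/

set_option autoImplicit false

open scoped TensorProduct

noncomputable section

namespace Fermat.Agent.S19.H

variable {R K : Type*} [CommRing R] [Field K] [Algebra R K]

/-- factor an algebra homomorphism through an injective one. -/
theorem exists_algHom_factor {A B C : Type*} [CommRing A] [Algebra R A] [CommRing B] [Algebra R B]
    [CommRing C] [Algebra R C] (ψ : B →ₐ[R] C) (hψ : Function.Injective ψ) (f : A →ₐ[R] C)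
    (hf : ∀ a, ∃ b, ψ b = f a) : ∃ g : A →ₐ[R] B, ∀ a, ψ (g a) = f a := by
  choose g hg using hf
  refine ⟨{ toFun := g, map_one' := ?_, map_mul' := ?_, map_zero' := ?_, map_add' := ?_,
            commutes' := ?_ }, hg⟩
  · apply hψ; rw [hg, map_one, map_one]
  · intro x y; apply hψ; rw [hg, map_mul, map_mul, hg, hg]
  · apply hψ; rw [hg, map_zero, map_zero]
  · intro x y; apply hψ; rw [hg, map_add, map_add, hg, hg]
  · intro r; apply hψ; rw [hg, AlgHom.commutes, AlgHom.commutes]

/-- the data needed to turn a lattice of functions on the group `Γ` into a Hopf algebra. -/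
structure HopfData (R K : Type*) [CommRing R] [Field K] [Algebra R K] {Γ A : Type*}
    [AddCommGroup Γ] [CommRing A] [Algebra R A] (φ : A →ₐ[R] (Γ → K)) : Prop where
  inj : Function.Injective (algebraMap R K)
  lat : IsLat φ
  comul : ∀ a, ∃ t : A ⊗[R] A, ∀ z : Γ × Γ, evT φ φ t z = φ a (z.1 + z.2)
  counit : ∀ a, ∃ r : R, algebraMap R K r = φ a 0
  anti : ∀ a, ∃ a', ∀ P, φ a' P = φ a (-P)

variable {Γ A : Type*} [AddCommGroup Γ] [CommRing A] [Algebra R A] {φ : A →ₐ[R] (Γ → K)}

namespace HopfData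

variable (D : HopfData R K φ)

include D

theorem exists_comulHom : ∃ g : A →ₐ[R] A ⊗[R] A, ∀ a (z : Γ × Γ),
    evT φ φ (g a) z = φ a (z.1 + z.2) := by
  obtain ⟨g, hg⟩ := exists_algHom_factor (evT φ φ) ((D.lat.evT D.lat).injective D.inj)
    ((pullFun R K (fun z : Γ × Γ => z.1 + z.2)).comp φ) (by
      intro a
      obtain ⟨t, ht⟩ := D.comul a
      exact ⟨t, funext ht⟩)
  exact ⟨g, fun a z => congrFun (hg a) z⟩

theorem exists_counitHom : ∃ g : A →ₐ[R] R, ∀ a, algebraMap R K (g a) = φ a 0 := by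
  obtain ⟨g, hg⟩ := exists_algHom_factor (Algebra.ofId R K) D.inj
    ((Pi.evalAlgHom R (fun _ : Γ => K) 0).comp φ) (by
      intro a
      obtain ⟨r, hr⟩ := D.counit a
      exact ⟨r, hr⟩)
  exact ⟨g, hg⟩

theorem exists_antiHom : ∃ g : A →ₐ[R] A, ∀ a P, φ (g a) P = φ a (-P) := by
  obtain ⟨g, hg⟩ := exists_algHom_factor φ (D.lat.injective D.inj)
    ((pullFun R K (fun P : Γ => -P)).comp φ) (by
      intro a
      obtain ⟨a', ha'⟩ := D.anti a
      exact ⟨a', funext ha'⟩)
  exact ⟨g, fun a P => congrFun (hg a) P⟩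

/-- comultiplication. -/
def comulHom : A →ₐ[R] A ⊗[R] A := D.exists_comulHom.choose

theorem evT_comulHom (a : A) (z : Γ × Γ) : evT φ φ (D.comulHom a) z = φ a (z.1 + z.2) :=
  D.exists_comulHom.choose_spec a z

/-- counit. -/
def counitHom : A →ₐ[R] R := D.exists_counitHom.choose

theorem algebraMap_counitHom (a : A) : algebraMap R K (D.counitHom a) = φ a 0 :=
  D.exists_counitHom.choose_spec a

/-- antipode. -/
def antiHom : A →ₐ[R] A := D.exists_antiHom.choose

theorem antiHom_apply (a : A) (P : Γ) : φ (D.antiHom a) P = φ a (-P) :=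
  D.exists_antiHom.choose_spec a P

end HopfData

end Fermat.Agent.S19.H
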