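import Fermat.Agent.S19.Defs

/-!
# S19 / block H : finite flat group schemes from integral matrix representations.  Definitions.

* `FunOrder ℓ Γ act` : a Hopf order inside the algebra of functions `Γ → ℚ̄`.
* `IsLat φ`, `evT φ ψ` : abstract tools (lattices of functions, evaluation of tensors).
-/

set_option autoImplicit false

open scoped TensorProduct

noncomputable section

namespace Fermat.Agent.S19.H

/-- `ℤ_(ℓ)`. -/
abbrev Rl (ℓ : ℕ) : Type := ↥(GaloisRep.ratLocalizedAt ℓ)

/-- the `R`-span of the functions `(x, y) ↦ a x * b y`, `a, b ∈ H`. -/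
def span₂ {R K X : Type*} [CommRing R] [Field K] [Algebra R K] (H : Subalgebra R (X → K)) :
    Submodule R (X × X → K) :=
  Submodule.span R {F | ∃ a ∈ H, ∃ b ∈ H, F = fun z => a z.1 * b z.2}

/-- A Hopf order in the algebra of functions on `Γ`. -/
structure FunOrder (ℓ : ℕ) (Γ : Type) [AddCommGroup Γ] (act : GQ → Γ → Γ) where
  carrier : Subalgebra (Rl ℓ) (Γ → Qb)
  fg : carrier.toSubmodule.FG
  equiv : ∀ f ∈ carrier, ∀ (σ : GQ) (P : Γ), f (act σ P) = σ (f P)
  sep : ∀ P Q : Γ, (∀ f ∈ carrier, f P = f Q) → P = Q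
  comul : ∀ f ∈ carrier, (fun z : Γ × Γ => f (z.1 + z.2)) ∈ span₂ carrier
  anti : ∀ f ∈ carrier, (fun P : Γ => f (-P)) ∈ carrier

section abstract

variable {R K : Type*} [CommRing R] [Field K] [Algebra R K]

/-- `φ : A → (X → K)` identifies `A` with a lattice of functions: some `R`-basis of `A` is mapped
to a `K`-linearly independent family. -/
def IsLat {A X : Type*} [CommRing A] [Algebra R A] (φ : A →ₐ[R] (X → K)) : Prop :=
  ∃ (ι : Type) (b : Module.Basis ι R A), LinearIndependent K (fun i => φ (b i))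

/-- pull back of functions along a map, as an algebra homomorphism. -/
def pullFun (R K : Type*) [CommRing R] [Field K] [Algebra R K] {X Y : Type*} (g : Y → X) :
    (X → K) →ₐ[R] (Y → K) where
  toFun f := f ∘ g
  map_one' := rfl
  map_mul' _ _ := rfl
  map_zero' := rfl
  map_add' _ _ := rfl
  commutes' _ := rfl

@[simp] theorem pullFun_apply {X Y : Type*} (g : Y → X) (f : X → K) (y : Y) :
    pullFun R K g f y = f (g y) := rfl

/-- evaluation of tensors: `(a ⊗ b) ↦ ((x, y) ↦ φ a x * ψ b y)`. -/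
def evT {A B X Y : Type*} [CommRing A] [Algebra R A] [CommRing B] [Algebra R B]
    (φ : A →ₐ[R] (X → K)) (ψ : B →ₐ[R] (Y → K)) : A ⊗[R] B →ₐ[R] (X × Y → K) :=
  Algebra.TensorProduct.lift ((pullFun R K Prod.fst).comp φ) ((pullFun R K Prod.snd).comp ψ)
    (fun _ _ => Commute.all _ _)

@[simp] theorem evT_tmul {A B X Y : Type*} [CommRing A] [Algebra R A] [CommRing B] [Algebra R B]
    (φ : A →ₐ[R] (X → K)) (ψ : B →ₐ[R] (Y → K)) (a : A) (b : B) (z : X × Y) :
    evT φ ψ (a ⊗ₜ b) z = φ a z.1 * ψ b z.2 := by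
  simp [evT]

end abstract

end Fermat.Agent.S19.H
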