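import Fermat.Agent.S19.H.Build

/-! # S19 / H-3 : the Hopf algebra structure on a lattice of functions on a group -/

set_option autoImplicit false

open scoped TensorProduct

noncomputable section

namespace Fermat.Agent.S19.H

variable {R K : Type*} [CommRing R] [Field K] [Algebra R K]
variable {Γ A : Type*} [AddCommGroup Γ] [CommRing A] [Algebra R A] {φ : A →ₐ[R] (Γ → K)}

omit [AddCommGroup Γ] in
theorem evT_assoc_tmul (u : A ⊗[R] A) (b : A) (P Q S : Γ) :
    evT φ (evT φ φ) (Algebra.TensorProduct.assoc R R R A A A (u ⊗ₜ b)) (P, (Q, S))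
      = evT φ φ u (P, Q) * φ b S := by
  induction u using TensorProduct.induction_on with
  | zero => simp
  | tmul x y => simp [mul_assoc]
  | add x y hx hy => rw [TensorProduct.add_tmul, map_add, map_add, Pi.add_apply, hx, hy, map_add,
      Pi.add_apply, add_mul]

namespace HopfData

variable (D : HopfData R K φ)

theorem evT_map_comul_id (t : A ⊗[R] A) (P Q S : Γ) :
    evT φ (evT φ φ) (Algebra.TensorProduct.assoc R R R A A A
      (Algebra.TensorProduct.map D.comulHom (AlgHom.id R A) t)) (P, (Q, S))
      = evT φ φ t (P + Q, S) := by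
  induction t using TensorProduct.induction_on with
  | zero => simp
  | tmul x y =>
    rw [Algebra.TensorProduct.map_tmul, evT_assoc_tmul, D.evT_comulHom, evT_tmul]
    rfl
  | add x y hx hy => simp only [map_add, Pi.add_apply, hx, hy]

theorem evT_map_id_comul (t : A ⊗[R] A) (P Q S : Γ) :
    evT φ (evT φ φ) (Algebra.TensorProduct.map (AlgHom.id R A) D.comulHom t) (P, (Q, S))
      = evT φ φ t (P, Q + S) := by
  induction t using TensorProduct.induction_on with
  | zero => simp
  | tmul x y =>
    rw [Algebra.TensorProduct.map_tmul, evT_tmul, D.evT_comulHom, evT_tmul]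
    rfl
  | add x y hx hy => simp only [map_add, Pi.add_apply, hx, hy]

theorem coassoc : (Algebra.TensorProduct.assoc R R R A A A).toAlgHom.comp
      ((Algebra.TensorProduct.map D.comulHom (.id R A)).comp D.comulHom)
      = (Algebra.TensorProduct.map (.id R A) D.comulHom).comp D.comulHom := by
  ext a
  apply (D.lat.evT (D.lat.evT D.lat)).injective D.inj
  ext ⟨P, Q, S⟩
  have h1 := D.evT_map_comul_id (D.comulHom a) P Q S
  have h2 := D.evT_map_id_comul (D.comulHom a) P Q S
  rw [D.evT_comulHom] at h1 h2
  show evT φ (evT φ φ) (Algebra.TensorProduct.assoc R R R A A A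
      (Algebra.TensorProduct.map D.comulHom (AlgHom.id R A) (D.comulHom a))) (P, Q, S)
    = evT φ (evT φ φ) (Algebra.TensorProduct.map (AlgHom.id R A) D.comulHom (D.comulHom a))
      (P, Q, S)
  rw [h1, h2]
  show φ a (P + Q + S) = φ a (P + (Q + S))
  rw [add_assoc]

theorem phi_lid_map_counit (t : A ⊗[R] A) (P : Γ) :
    φ (Algebra.TensorProduct.lid R A (Algebra.TensorProduct.map D.counitHom (AlgHom.id R A) t)) P
      = evT φ φ t (0, P) := by
  induction t using TensorProduct.induction_on with
  | zero => simp
  | tmul x y =>
    rw [Algebra.TensorProduct.map_tmul, Algebra.TensorProduct.lid_tmul, map_smul, Pi.smul_apply,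
      evT_tmul, ← D.algebraMap_counitHom, Algebra.smul_def]
    rfl
  | add x y hx hy => simp only [map_add, Pi.add_apply, hx, hy]

theorem phi_rid_map_counit (t : A ⊗[R] A) (P : Γ) :
    φ (Algebra.TensorProduct.rid R R A (Algebra.TensorProduct.map (AlgHom.id R A) D.counitHom t)) P
      = evT φ φ t (P, 0) := by
  induction t using TensorProduct.induction_on with
  | zero => simp
  | tmul x y =>
    rw [Algebra.TensorProduct.map_tmul, Algebra.TensorProduct.rid_tmul, map_smul, Pi.smul_apply,
      evT_tmul, ← D.algebraMap_counitHom, Algebra.smul_def, mul_comm]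
    rfl
  | add x y hx hy => simp only [map_add, Pi.add_apply, hx, hy]

theorem rTensor_counit : (Algebra.TensorProduct.map D.counitHom (.id R A)).comp D.comulHom
      = (Algebra.TensorProduct.lid R A).symm := by
  ext a
  apply (Algebra.TensorProduct.lid R A).injective
  apply D.lat.injective D.inj
  ext P
  have h1 := D.phi_lid_map_counit (D.comulHom a) P
  rw [D.evT_comulHom] at h1
  show φ (Algebra.TensorProduct.lid R A
      (Algebra.TensorProduct.map D.counitHom (AlgHom.id R A) (D.comulHom a))) P
    = φ (Algebra.TensorProduct.lid R A ((Algebra.TensorProduct.lid R A).symm a)) P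
  rw [h1, AlgEquiv.apply_symm_apply]
  show φ a (0 + P) = φ a P
  rw [zero_add]

theorem lTensor_counit : (Algebra.TensorProduct.map (.id R A) D.counitHom).comp D.comulHom
      = (Algebra.TensorProduct.rid R R A).symm := by
  ext a
  apply (Algebra.TensorProduct.rid R R A).injective
  apply D.lat.injective D.inj
  ext P
  have h1 := D.phi_rid_map_counit (D.comulHom a) P
  rw [D.evT_comulHom] at h1
  show φ (Algebra.TensorProduct.rid R R A
      (Algebra.TensorProduct.map (AlgHom.id R A) D.counitHom (D.comulHom a))) P
    = φ (Algebra.TensorProduct.rid R R A ((Algebra.TensorProduct.rid R R A).symm a)) P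
  rw [h1, AlgEquiv.apply_symm_apply]
  show φ a (P + 0) = φ a P
  rw [add_zero]

/-- the bialgebra structure. -/
@[reducible] def bialg : Bialgebra R A :=
  Bialgebra.ofAlgHom D.comulHom D.counitHom D.coassoc D.rTensor_counit D.lTensor_counit

theorem phi_mul_anti_rTensor (t : A ⊗[R] A) (P : Γ) :
    φ (LinearMap.mul' R A (D.antiHom.toLinearMap.rTensor A t)) P = evT φ φ t (-P, P) := by
  induction t using TensorProduct.induction_on with
  | zero => simp
  | tmul x y => simp [D.antiHom_apply]
  | add x y hx hy => simp only [map_add, Pi.add_apply, hx, hy]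

theorem phi_mul_anti_lTensor (t : A ⊗[R] A) (P : Γ) :
    φ (LinearMap.mul' R A (D.antiHom.toLinearMap.lTensor A t)) P = evT φ φ t (P, -P) := by
  induction t using TensorProduct.induction_on with
  | zero => simp
  | tmul x y => simp [D.antiHom_apply]
  | add x y hx hy => simp only [map_add, Pi.add_apply, hx, hy]

/-- the Hopf algebra structure. -/
@[reducible] def hopf : HopfAlgebra R A :=
  { D.bialg with
    antipode := D.antiHom.toLinearMap
    mul_antipode_rTensor_comul := by
      ext a
      apply D.lat.injective D.inj
      ext P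
      have h1 := D.phi_mul_anti_rTensor (D.comulHom a) P
      rw [D.evT_comulHom] at h1
      show φ (LinearMap.mul' R A (D.antiHom.toLinearMap.rTensor A (D.comulHom a))) P
        = φ (algebraMap R A (D.counitHom a)) P
      rw [h1, AlgHom.commutes, Pi.algebraMap_apply, D.algebraMap_counitHom]
      simp
    mul_antipode_lTensor_comul := by
      ext a
      apply D.lat.injective D.inj
      ext P
      have h1 := D.phi_mul_anti_lTensor (D.comulHom a) P
      rw [D.evT_comulHom] at h1
      show φ (LinearMap.mul' R A (D.antiHom.toLinearMap.lTensor A (D.comulHom a))) P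
        = φ (algebraMap R A (D.counitHom a)) P
      rw [h1, AlgHom.commutes, Pi.algebraMap_apply, D.algebraMap_counitHom]
      simp }

theorem evT_comm (t : A ⊗[R] A) (P Q : Γ) :
    evT φ φ (TensorProduct.comm R A A t) (P, Q) = evT φ φ t (Q, P) := by
  induction t using TensorProduct.induction_on with
  | zero => simp
  | tmul x y => simp [mul_comm]
  | add x y hx hy => simp only [map_add, Pi.add_apply, hx, hy]

theorem isCocomm : @Coalgebra.IsCocomm R A _ _ _ D.hopf.toCoalgebra := by
  letI := D.hopf
  refine ⟨?_⟩
  ext a
  apply (D.lat.evT D.lat).injective D.inj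
  ext ⟨P, Q⟩
  show evT φ φ (TensorProduct.comm R A A (D.comulHom a)) (P, Q) = evT φ φ (D.comulHom a) (P, Q)
  rw [evT_comm, D.evT_comulHom, D.evT_comulHom, add_comm]

end HopfData

end Fermat.Agent.S19.H
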