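import Fermat.Agent.S19.H.Order

/-! # S19 / H-6 : integrality over `ℤ_(ℓ)` and valuation rings over `ℓ` -/

set_option autoImplicit false
set_option linter.style.haveILetI false

open Polynomial

noncomputable section

namespace Fermat.Agent.S19.H

section val

variable {ℓ : ℕ} (A : ValuationSubring Qb)

theorem val_int_le (n : ℤ) : A.valuation (n : Qb) ≤ 1 :=
  (A.valuation_le_one_iff _).mpr (intCast_mem A n)

variable {A}

theorem val_lt_of_dvd (hA : A.LiesOverPrime ℓ) {n : ℤ} (h : (ℓ : ℤ) ∣ n) :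
    A.valuation (n : Qb) < 1 := by
  obtain ⟨d, rfl⟩ := h
  have h1 : A.valuation (ℓ : Qb) < 1 := A.mem_nonunits_iff.mp hA
  push_cast
  rw [map_mul]
  calc A.valuation (ℓ : Qb) * A.valuation (d : Qb) ≤ A.valuation (ℓ : Qb) * 1 :=
        mul_le_mul_right (val_int_le A d) _
    _ < 1 := by rw [mul_one]; exact h1

theorem val_eq_one_of_not_dvd [Fact ℓ.Prime] (hA : A.LiesOverPrime ℓ) {n : ℤ}
    (h : ¬ (ℓ : ℤ) ∣ n) : A.valuation (n : Qb) = 1 := by
  by_contra hne
  have hlt : A.valuation (n : Qb) < 1 := lt_of_le_of_ne (val_int_le A n) hne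
  have hcop : IsCoprime (ℓ : ℤ) n :=
    (Nat.prime_iff_prime_int.mp Fact.out).coprime_iff_not_dvd.mpr h
  obtain ⟨u, v, huv⟩ := hcop
  have h2 : A.valuation (1 : Qb) < 1 := by
    have h1 : (1 : Qb) = (u : Qb) * ((ℓ : ℤ) : Qb) + (v : Qb) * (n : Qb) := by
      exact_mod_cast huv.symm
    rw [h1]
    refine lt_of_le_of_lt (A.valuation.map_add _ _) (max_lt ?_ ?_)
    · rw [map_mul]
      calc A.valuation (u : Qb) * A.valuation (((ℓ : ℤ) : Qb))
          ≤ 1 * A.valuation (((ℓ : ℤ) : Qb)) := mul_le_mul_left (val_int_le A u) _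
        _ < 1 := by rw [one_mul]; exact val_lt_of_dvd hA dvd_rfl
    · rw [map_mul]
      calc A.valuation (v : Qb) * A.valuation (n : Qb)
          ≤ 1 * A.valuation (n : Qb) := mul_le_mul_left (val_int_le A v) _
        _ < 1 := by rw [one_mul]; exact hlt
  rw [map_one] at h2
  exact lt_irrefl _ h2

theorem algebraMap_rat_mul_den (r : ℚ) :
    algebraMap ℚ Qb r * ((r.den : ℤ) : Qb) = (r.num : Qb) := by
  have h := Rat.mul_den_eq_num r
  have h2 := congrArg (algebraMap ℚ Qb) h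
  rw [map_mul, map_natCast, map_intCast] at h2
  rw [← h2]
  push_cast
  rfl

theorem rat_mem_Rl_of_mem [Fact ℓ.Prime] (hA : A.LiesOverPrime ℓ) {r : ℚ}
    (h : algebraMap ℚ Qb r ∈ A) : r ∈ GaloisRep.ratLocalizedAt ℓ := by
  show r.den.Coprime ℓ
  rw [Nat.coprime_comm, Nat.Prime.coprime_iff_not_dvd Fact.out]
  intro hd
  have hn : ¬ (ℓ : ℤ) ∣ r.num := by
    intro hn
    have h1 : ℓ ∣ r.num.natAbs := Int.natCast_dvd.mp hn
    have h2 := Nat.dvd_gcd h1 hd
    rw [r.reduced] at h2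
    exact (Fact.out : ℓ.Prime).one_lt.ne' (Nat.dvd_one.mp h2)
  have h1 := val_eq_one_of_not_dvd hA hn
  have h2 : A.valuation ((r.den : ℤ) : Qb) < 1 := val_lt_of_dvd hA (Int.natCast_dvd_natCast.mpr hd)
  rw [← algebraMap_rat_mul_den, map_mul] at h1
  have h3 : A.valuation (algebraMap ℚ Qb r) ≤ 1 := (A.valuation_le_one_iff _).mpr h
  have h4 : A.valuation (algebraMap ℚ Qb r) * A.valuation ((r.den : ℤ) : Qb) < 1 :=
    calc _ ≤ 1 * A.valuation ((r.den : ℤ) : Qb) := mul_le_mul_left h3 _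
      _ < 1 := by rw [one_mul]; exact h2
  rw [h1] at h4
  exact lt_irrefl _ h4

theorem algebraMap_Rl_mem [Fact ℓ.Prime] (hA : A.LiesOverPrime ℓ) (x : Rl ℓ) :
    algebraMap (Rl ℓ) Qb x ∈ A := by
  show algebraMap ℚ Qb (x : ℚ) ∈ A
  rw [← A.valuation_le_one_iff]
  have hd : ¬ (ℓ : ℤ) ∣ ((x : ℚ).den : ℤ) := by
    intro h
    have h1 : (x : ℚ).den.Coprime ℓ := x.2
    rw [Nat.coprime_comm, Nat.Prime.coprime_iff_not_dvd Fact.out] at h1
    exact h1 (Int.natCast_dvd_natCast.mp h)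
  have h1 := val_eq_one_of_not_dvd hA hd
  have h2 := congrArg A.valuation (algebraMap_rat_mul_den (x : ℚ))
  rw [map_mul, h1, mul_one] at h2
  rw [h2]
  exact val_int_le A _

/-- an algebraic number all of whose conjugates lie in a valuation ring over `ℓ` is integral
over `ℤ_(ℓ)`. -/
theorem isIntegral_of_forall_mem [Fact ℓ.Prime] (hA : A.LiesOverPrime ℓ) {x : Qb}
    (h : ∀ σ : GQ, σ x ∈ A) : IsIntegral (Rl ℓ) x := by
  haveI : IsGalois ℚ Qb :=
    @IsAlgClosure.isGalois ℚ (AlgebraicClosure ℚ) _ _ (AlgebraicClosure.instAlgebra ℚ) _ _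
  haveI : Normal ℚ Qb := IsGalois.to_normal
  have hx : IsIntegral ℚ x := Algebra.IsIntegral.isIntegral x
  set p := minpoly ℚ x with hp
  have hmon : p.Monic := minpoly.monic hx
  have hsplit : (p.map (algebraMap ℚ Qb)).Splits := IsAlgClosed.splits _
  have hprod := hsplit.eq_prod_roots_of_monic (hmon.map _)
  have hlift : p.map (algebraMap ℚ Qb) ∈ Polynomial.lifts A.subtype := by
    rw [hprod]
    apply Subsemiring.multiset_prod_mem
    intro q hq
    obtain ⟨y, hy, rfl⟩ := Multiset.mem_map.mp hq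
    have hy0 : aeval y p = 0 := by
      have := (Polynomial.mem_roots'.mp hy).2
      rwa [IsRoot.def, eval_map_algebraMap] at this
    obtain ⟨σ, hσ⟩ := minpoly.exists_algEquiv_of_root' (K := ℚ) (L := Qb) hx.isAlgebraic hy0
    have hyA : y ∈ A := hσ ▸ h σ
    rw [Polynomial.lifts_iff_coeff_lifts]
    intro n
    refine ⟨(X - C (⟨y, hyA⟩ : A)).coeff n, ?_⟩
    simp only [coeff_sub, coeff_X, coeff_C, map_sub]
    split_ifs <;> simp
  have hlift2 : p ∈ Polynomial.lifts (algebraMap (Rl ℓ) ℚ) := by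
    rw [Polynomial.lifts_iff_coeff_lifts]
    intro n
    obtain ⟨a, ha⟩ := (Polynomial.lifts_iff_coeff_lifts _).mp hlift n
    rw [coeff_map] at ha
    have : algebraMap ℚ Qb (p.coeff n) ∈ A := ha ▸ a.2
    exact ⟨⟨_, rat_mem_Rl_of_mem hA this⟩, rfl⟩
  obtain ⟨q, hq, -, hqm⟩ := Polynomial.lifts_and_natDegree_eq_and_monic hlift2 hmon
  refine ⟨q, hqm, ?_⟩
  have h1 : aeval x p = 0 := minpoly.aeval ℚ x
  rw [← hq, aeval_def, eval₂_map] at h1
  exact h1

end val

/-- a function on a finite set with integral values is integral. -/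
theorem isIntegral_pi {R K X : Type*} [CommRing R] [CommRing K] [Algebra R K] [Finite X]
    {f : X → K} (h : ∀ x, IsIntegral R (f x)) : IsIntegral R f := by
  classical
  haveI := Fintype.ofFinite X
  choose p hp hp0 using h
  refine ⟨∏ x, p x, monic_prod_of_monic _ _ fun x _ => hp x, ?_⟩
  ext x
  have h1 : (eval₂ (algebraMap R (X → K)) f (∏ x, p x)) x
      = eval₂ (algebraMap R K) (f x) (∏ x, p x) := by
    have := Polynomial.hom_eval₂ (∏ x, p x) (algebraMap R (X → K)) (Pi.evalRingHom (fun _ => K) x) f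
    exact this
  rw [h1, eval₂_finsetProd, Pi.zero_apply]
  exact Finset.prod_eq_zero (Finset.mem_univ x) (hp0 x)

end Fermat.Agent.S19.H
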