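import Fermat.Agent.S19.H.Defs

/-! # S19 / H-1 : lattices of functions and tensor products -/

set_option autoImplicit false

open scoped TensorProduct

noncomputable section

namespace Fermat.Agent.S19.H

variable {R K : Type*} [CommRing R] [Field K] [Algebra R K]

theorem IsLat.injective (hRK : Function.Injective (algebraMap R K))
    {A X : Type*} [CommRing A] [Algebra R A] {φ : A →ₐ[R] (X → K)} (h : IsLat φ) :
    Function.Injective φ := by
  obtain ⟨ι, b, hb⟩ := h
  rw [injective_iff_map_eq_zero]
  intro a ha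
  have h1 : φ a = ∑ i ∈ (b.repr a).support, algebraMap R K (b.repr a i) • φ (b i) := by
    conv_lhs => rw [← b.linearCombination_repr a, Finsupp.linearCombination_apply, Finsupp.sum,
      map_sum]
    refine Finset.sum_congr rfl fun i _ => ?_
    rw [map_smul, algebraMap_smul]
  rw [ha] at h1
  have h2 := linearIndependent_iff'.mp hb _ _ h1.symm
  apply b.repr.injective
  ext i
  by_cases hi : i ∈ (b.repr a).support
  · have := h2 i hi
    rw [map_zero, Finsupp.zero_apply]
    exact hRK (by rw [this, map_zero])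
  · rw [map_zero, Finsupp.zero_apply]
    exact Finsupp.notMem_support_iff.mp hi

/-- products of two linearly independent families of functions are linearly independent. -/
theorem linearIndependent_mul_fun {X Y ι κ : Type*} {f : ι → X → K} {g : κ → Y → K}
    (hf : LinearIndependent K f) (hg : LinearIndependent K g) :
    LinearIndependent K (fun p : ι × κ => fun z : X × Y => f p.1 z.1 * g p.2 z.2) := by
  classical
  rw [linearIndependent_iff']
  intro s c hs p hp
  set c' : ι × κ → K := fun q => if q ∈ s then c q else 0 with hc'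
  set s1 := s.image Prod.fst
  set s2 := s.image Prod.snd
  have hsub : s ⊆ s1 ×ˢ s2 := by
    intro q hq
    exact Finset.mem_product.mpr ⟨Finset.mem_image_of_mem _ hq, Finset.mem_image_of_mem _ hq⟩
  have h1 : ∀ z : X × Y, ∑ i ∈ s1, ∑ j ∈ s2, c' (i, j) * (f i z.1 * g j z.2) = 0 := by
    intro z
    rw [← Finset.sum_product']
    have h2 := congrFun hs z
    rw [Finset.sum_apply, Pi.zero_apply] at h2
    rw [← Finset.sum_subset hsub]
    · rw [← h2]
      refine Finset.sum_congr rfl fun q hq => ?_
      simp [hc', hq]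
    · intro q _ hq
      simp [hc', hq]
  have h3 : ∀ y : Y, ∀ i ∈ s1, ∑ j ∈ s2, c' (i, j) * g j y = 0 := by
    intro y
    apply linearIndependent_iff'.mp hf s1 (fun i => ∑ j ∈ s2, c' (i, j) * g j y)
    ext x
    rw [Finset.sum_apply, Pi.zero_apply, ← h1 (x, y)]
    refine Finset.sum_congr rfl fun i _ => ?_
    rw [Pi.smul_apply, smul_eq_mul, Finset.sum_mul]
    refine Finset.sum_congr rfl fun j _ => ?_
    ring
  have h4 : ∀ i ∈ s1, ∀ j ∈ s2, c' (i, j) = 0 := by
    intro i hi
    apply linearIndependent_iff'.mp hg s2 (fun j => c' (i, j))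
    ext y
    rw [Finset.sum_apply, Pi.zero_apply, ← h3 y i hi]
    rfl
  have h5 := h4 p.1 (Finset.mem_image_of_mem _ hp) p.2 (Finset.mem_image_of_mem _ hp)
  simpa [hc', hp] using h5

theorem IsLat.evT {A B X Y : Type*} [CommRing A] [Algebra R A] [CommRing B] [Algebra R B]
    {φ : A →ₐ[R] (X → K)} {ψ : B →ₐ[R] (Y → K)} (hφ : IsLat φ) (hψ : IsLat ψ) :
    IsLat (evT φ ψ) := by
  obtain ⟨ι, b, hb⟩ := hφ
  obtain ⟨κ, c, hc⟩ := hψ
  refine ⟨ι × κ, b.tensorProduct c, ?_⟩
  have := linearIndependent_mul_fun hb hc
  convert this using 2 with p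
  ext z
  rw [Module.Basis.tensorProduct_apply, evT_tmul]

end Fermat.Agent.S19.H
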