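import Fermat.Agent.S19.H.Integral

/-! # S19 / H-7 : (REP) ⇒ Hopf order ⇒ finite flat model   (export (H1)) -/

set_option autoImplicit false
set_option linter.style.haveILetI false

noncomputable section

namespace Fermat.Agent.S19.H

section span2

variable {R K X : Type*} [CommRing R] [Field K] [Algebra R K] {H : Subalgebra R (X → K)}

theorem span₂_mul_mem {F G : X × X → K} (hF : F ∈ span₂ H) (hG : G ∈ span₂ H) :
    F * G ∈ span₂ H := by
  induction hF using Submodule.span_induction with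
  | mem F hF =>
    obtain ⟨a, ha, b, hb, rfl⟩ := hF
    induction hG using Submodule.span_induction with
    | mem G hG =>
      obtain ⟨c, hc, d, hd, rfl⟩ := hG
      refine Submodule.subset_span ⟨a * c, H.mul_mem ha hc, b * d, H.mul_mem hb hd, ?_⟩
      ext z
      simp only [Pi.mul_apply]
      ring
    | zero => rw [mul_zero]; exact zero_mem _
    | add G G' _ _ h h' => rw [mul_add]; exact add_mem h h'
    | smul r G _ h => rw [mul_smul_comm]; exact Submodule.smul_mem _ _ h
  | zero => rw [zero_mul]; exact zero_mem _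
  | add F F' _ _ h h' => rw [add_mul]; exact add_mem h h'
  | smul r F _ h => rw [smul_mul_assoc]; exact Submodule.smul_mem _ _ h

theorem span₂_mk_mem {a b : X → K} (ha : a ∈ H) (hb : b ∈ H) :
    (fun z : X × X => a z.1 * b z.2) ∈ span₂ H :=
  Submodule.subset_span ⟨a, ha, b, hb, rfl⟩

theorem span₂_algebraMap_mem (r : R) : (fun _ : X × X => algebraMap R K r) ∈ span₂ H := by
  have h := span₂_mk_mem (H := H) (H.algebraMap_mem r) H.one_mem
  convert h using 2
  simp [Algebra.algebraMap_eq_smul_one]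

/-- substitution of two maps `u, v : X → X` preserving `H` into an element of `span₂ H`. -/
theorem span₂_subst {F : X × X → K} (hF : F ∈ span₂ H) (u v : X → X)
    (hu : ∀ a ∈ H, (fun x => a (u x)) ∈ H) (hv : ∀ a ∈ H, (fun x => a (v x)) ∈ H) :
    (fun x => F (u x, v x)) ∈ H := by
  induction hF using Submodule.span_induction with
  | mem F hF =>
    obtain ⟨a, ha, b, hb, rfl⟩ := hF
    exact H.mul_mem (hu a ha) (hv b hb)
  | zero => exact H.zero_mem
  | add F F' _ _ h h' => exact H.add_mem h h'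
  | smul r F _ h => exact H.smul_mem h r

end span2

section anti

variable {R K Γ : Type*} [CommRing R] [Field K] [Algebra R K] [AddCommGroup Γ]
  {H : Subalgebra R (Γ → K)}

theorem comp_nsmul_mem (hc : ∀ f ∈ H, (fun z : Γ × Γ => f (z.1 + z.2)) ∈ span₂ H) (k : ℕ) :
    ∀ f ∈ H, (fun P : Γ => f ((k + 1) • P)) ∈ H := by
  induction k with
  | zero =>
    intro f hf
    simpa using hf
  | succ k ih =>
    intro f hf
    have h := span₂_subst (hc f hf) (fun P => (k + 1) • P) id ih (fun a ha => ha)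
    convert h using 2 with P
    rw [succ_nsmul]
    rfl

theorem comp_neg_mem [Finite Γ] (hc : ∀ f ∈ H, (fun z : Γ × Γ => f (z.1 + z.2)) ∈ span₂ H) :
    ∀ f ∈ H, (fun P : Γ => f (-P)) ∈ H := by
  intro f hf
  have hN : 0 < Nat.card Γ := Nat.card_pos
  obtain ⟨k, hk⟩ : ∃ k, Nat.card Γ = k + 1 := ⟨Nat.card Γ - 1, by omega⟩
  have h := comp_nsmul_mem hc (k + k) f hf
  convert h using 2 with P
  have h1 : (Nat.card Γ) • P = 0 := card_nsmul_eq_zero'
  have h2 : (k + k + 1) • P + P = 0 := by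
    rw [← succ_nsmul]
    have : k + k + 1 + 1 = Nat.card Γ + Nat.card Γ := by
      rw [hk]
      ring
    rw [this, add_nsmul, h1, add_zero]
  exact congrArg f (eq_neg_of_add_eq_zero_left h2).symm

end anti

variable {ℓ : ℕ} [Fact ℓ.Prime] {Γ : Type} [AddCommGroup Γ] {act : GQ → Γ → Γ}

/-- smart constructor (the antipode is automatic). -/
def FunOrder.mk' [Finite Γ] (carrier : Subalgebra (Rl ℓ) (Γ → Qb)) (fg : carrier.toSubmodule.FG)
    (equiv : ∀ f ∈ carrier, ∀ (σ : GQ) (P : Γ), f (act σ P) = σ (f P))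
    (sep : ∀ P Q : Γ, (∀ f ∈ carrier, f P = f Q) → P = Q)
    (comul : ∀ f ∈ carrier, (fun z : Γ × Γ => f (z.1 + z.2)) ∈ span₂ carrier) :
    FunOrder ℓ Γ act :=
  ⟨carrier, fg, equiv, sep, comul, comp_neg_mem comul⟩

omit [Fact ℓ.Prime] in
/-- equivariance passes to the generated algebra. -/
theorem equiv_of_mem_adjoin {X : Type*} (act : GQ → X → X) {S : Set (X → Qb)}
    (hS : ∀ f ∈ S, ∀ (σ : GQ) (x : X), f (act σ x) = σ (f x)) {f : X → Qb}
    (hf : f ∈ Algebra.adjoin (Rl ℓ) S) (σ : GQ) (x : X) : f (act σ x) = σ (f x) := by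
  induction hf using Algebra.adjoin_induction with
  | mem f hf => exact hS f hf σ x
  | algebraMap r => exact (σ.commutes (r : ℚ)).symm
  | add f g _ _ hf hg => rw [Pi.add_apply, Pi.add_apply, hf, hg, map_add]
  | mul f g _ _ hf hg => rw [Pi.mul_apply, Pi.mul_apply, hf, hg, map_mul]

/-- the comultiplication condition may be checked on generators. -/
theorem comul_of_mem_adjoin {R K : Type*} [CommRing R] [Field K] [Algebra R K]
    {Γ : Type*} [AddCommGroup Γ] {S : Set (Γ → K)}
    (hS : ∀ f ∈ S, (fun z : Γ × Γ => f (z.1 + z.2)) ∈ span₂ (Algebra.adjoin R S)) {f : Γ → K}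
    (hf : f ∈ Algebra.adjoin R S) :
    (fun z : Γ × Γ => f (z.1 + z.2)) ∈ span₂ (Algebra.adjoin R S) := by
  induction hf using Algebra.adjoin_induction with
  | mem f hf => exact hS f hf
  | algebraMap r => exact span₂_algebraMap_mem r
  | add f g _ _ hf hg => exact add_mem hf hg
  | mul f g _ _ hf hg => exact span₂_mul_mem hf hg

/-- **(H1)** -/
theorem hasFFModel_of_hasRep (A : ValuationSubring Qb) (hA : A.LiesOverPrime ℓ) [Finite Γ]
    (act : GQ → Γ → Γ) (h : HasRep A Γ act) : HasFFModel ℓ Γ act := by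
  obtain ⟨m, ρ, h0, hadd, hinj, hmem, heq⟩ := h
  set S : Set (Γ → Qb) := Set.range (fun p : Fin m × Fin m => fun P => ρ P p.1 p.2) with hS
  have hSmem : ∀ i j, (fun P => ρ P i j) ∈ Algebra.adjoin (Rl ℓ) S := fun i j =>
    Algebra.subset_adjoin ⟨(i, j), rfl⟩
  refine (FunOrder.mk' (ℓ := ℓ) (act := act) (Algebra.adjoin (Rl ℓ) S) ?_ ?_ ?_ ?_).hasFFModel
  · apply fg_adjoin_of_finite (Set.finite_range _)
    rintro _ ⟨p, rfl⟩
    apply isIntegral_pi
    intro P
    apply isIntegral_of_forall_mem hA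
    intro σ
    rw [← heq]
    exact hmem _ _ _
  · intro f hf σ P
    refine equiv_of_mem_adjoin act ?_ hf σ P
    rintro _ ⟨p, rfl⟩ σ P
    exact heq σ P p.1 p.2
  · intro P Q hPQ
    apply hinj
    ext i j
    exact hPQ _ (hSmem i j)
  · intro f hf
    refine comul_of_mem_adjoin ?_ hf
    rintro _ ⟨p, rfl⟩
    have : (fun z : Γ × Γ => ρ (z.1 + z.2) p.1 p.2)
        = ∑ k, fun z : Γ × Γ => ρ z.1 p.1 k * ρ z.2 k p.2 := by
      ext z
      rw [hadd, Matrix.mul_apply, Finset.sum_apply]
    rw [this]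
    exact Submodule.sum_mem _ fun k _ => span₂_mk_mem (hSmem _ _) (hSmem _ _)

end Fermat.Agent.S19.H
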