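import Fermat.Agent.S19.H.Points
import Fermat.Agent.S28.Zl

/-! # S19 / H-5 : a Hopf order of Galois equivariant functions gives a finite flat Hopf algebra -/

set_option autoImplicit false
set_option linter.style.haveILetI false

open scoped TensorProduct

noncomputable section

namespace Fermat.Agent.S19.H

theorem mem_range_of_fixed (x : Qb) (h : ∀ σ : GQ, σ x = x) : ∃ r : ℚ, algebraMap ℚ Qb r = x :=
  haveI : IsGalois ℚ Qb :=
    @IsAlgClosure.isGalois ℚ (AlgebraicClosure ℚ) _ _ (AlgebraicClosure.instAlgebra ℚ) _ _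
  (InfiniteGalois.mem_range_algebraMap_iff_fixed (k := ℚ) (K := Qb) x).mpr h

/-- Galois descent: `ℚ`-linearly independent equivariant functions are `ℚ̄`-linearly independent. -/
theorem linearIndependent_of_equivariant {X ι : Type*} (act : GQ → X → X)
    (hact : ∀ σ, Function.Surjective (act σ)) (h : ι → X → Qb)
    (heq : ∀ i σ x, h i (act σ x) = σ (h i x)) (hQ : LinearIndependent ℚ h) :
    LinearIndependent Qb h := by
  classical
  rw [linearIndependent_iff']
  intro s
  induction s using Finset.strongInduction with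
  | H s ih =>
    intro c hc i0 hi0
    by_contra hne
    -- normalise
    set d : ι → Qb := fun i => (c i0)⁻¹ * c i with hd
    have hd0 : d i0 = 1 := inv_mul_cancel₀ hne
    have hdrel : ∑ i ∈ s, d i • h i = 0 := by
      have : ∑ i ∈ s, d i • h i = (c i0)⁻¹ • ∑ i ∈ s, c i • h i := by
        rw [Finset.smul_sum]
        refine Finset.sum_congr rfl fun i _ => ?_
        rw [smul_smul]
      rw [this, hc, smul_zero]
    have hσ : ∀ σ : GQ, ∑ i ∈ s, σ (d i) • h i = 0 := by
      intro σ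
      ext x
      obtain ⟨y, rfl⟩ := hact σ x
      have h1 := congrArg σ (congrFun hdrel y)
      rw [Finset.sum_apply, map_sum, Pi.zero_apply, map_zero] at h1
      rw [Finset.sum_apply, Pi.zero_apply, ← h1]
      refine Finset.sum_congr rfl fun i _ => ?_
      rw [Pi.smul_apply, Pi.smul_apply, smul_eq_mul, smul_eq_mul, map_mul σ (d i), heq]
    have hfix : ∀ σ : GQ, ∀ i ∈ s, σ (d i) = d i := by
      intro σ i hi
      by_cases hii : i = i0
      · rw [hii, hd0, map_one]
      have h2 : ∑ i ∈ s.erase i0, (σ (d i) - d i) • h i = 0 := by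
        have h3 : ∑ i ∈ s, (σ (d i) - d i) • h i = 0 := by
          simp only [sub_smul, Finset.sum_sub_distrib, hσ σ, hdrel, sub_zero]
        rw [← Finset.add_sum_erase s _ hi0, hd0, map_one, sub_self, zero_smul, zero_add] at h3
        exact h3
      have h4 := ih (s.erase i0) (Finset.erase_ssubset hi0) _ h2 i
        (Finset.mem_erase.mpr ⟨hii, hi⟩)
      exact sub_eq_zero.mp h4
    have hrat : ∀ i ∈ s, ∃ r : ℚ, algebraMap ℚ Qb r = d i := fun i hi =>
      mem_range_of_fixed _ fun σ => hfix σ i hi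
    choose! r hr using hrat
    have h5 : ∑ i ∈ s, r i • h i = 0 := by
      rw [← hdrel]
      refine Finset.sum_congr rfl fun i hi => ?_
      rw [← hr i hi, algebraMap_smul]
    have h6 := linearIndependent_iff'.mp hQ s r h5 i0 hi0
    have h7 := hr i0 hi0
    rw [h6, map_zero, hd0] at h7
    exact zero_ne_one h7

variable {ℓ : ℕ} [Fact ℓ.Prime] {Γ : Type} [AddCommGroup Γ] {act : GQ → Γ → Γ}

theorem algebraMap_Rl_injective (ℓ : ℕ) : Function.Injective (algebraMap (Rl ℓ) Qb) := by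
  intro x y hxy
  have h1 : algebraMap ℚ Qb (x : ℚ) = algebraMap ℚ Qb (y : ℚ) := hxy
  exact Subtype.ext ((algebraMap ℚ Qb).injective h1)

namespace FunOrder

variable (𝒪 : FunOrder ℓ Γ act)

omit [Fact ℓ.Prime] in
include 𝒪 in
theorem act_injective (σ : GQ) : Function.Injective (act σ) := by
  intro P Q h
  apply 𝒪.sep
  intro f hf
  apply σ.injective
  rw [← 𝒪.equiv f hf, ← 𝒪.equiv f hf, h]

omit [Fact ℓ.Prime] in
include 𝒪 in
theorem act_surjective [Finite Γ] (σ : GQ) : Function.Surjective (act σ) :=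
  Finite.surjective_of_injective (𝒪.act_injective σ)

omit [Fact ℓ.Prime] in
theorem span₂_equiv {F : Γ × Γ → Qb} (hF : F ∈ span₂ 𝒪.carrier) (σ : GQ) (P Q : Γ) :
    F (act σ P, act σ Q) = σ (F (P, Q)) := by
  induction hF using Submodule.span_induction with
  | mem F hF =>
    obtain ⟨a, ha, b, hb, rfl⟩ := hF
    simp only [𝒪.equiv a ha, 𝒪.equiv b hb, map_mul]
  | zero => simp
  | add F G _ _ hF hG => simp only [Pi.add_apply, hF, hG, map_add]
  | smul r F _ hF =>
    simp only [Pi.smul_apply, hF, Algebra.smul_def, map_mul]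
    congr 1
    exact (σ.commutes (r : ℚ)).symm

omit [Fact ℓ.Prime] in
include 𝒪 in
theorem act_add (σ : GQ) (P Q : Γ) : act σ (P + Q) = act σ P + act σ Q := by
  apply 𝒪.sep
  intro f hf
  rw [𝒪.equiv f hf]
  exact (𝒪.span₂_equiv (𝒪.comul f hf) σ P Q).symm

omit [Fact ℓ.Prime] in
include 𝒪 in
theorem act_zero (σ : GQ) : act σ 0 = 0 := by
  have h := 𝒪.act_add σ 0 0
  rw [add_zero] at h
  exact left_eq_add.mp h

theorem isLat [Finite Γ] : IsLat (R := Rl ℓ) (K := Qb) 𝒪.carrier.val := by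
  haveI : Module.Finite (Rl ℓ) 𝒪.carrier := Module.Finite.iff_fg.mpr 𝒪.fg
  haveI : Module.IsTorsionFree (Rl ℓ) 𝒪.carrier := by
    apply Module.IsTorsionFree.of_smul_eq_zero
    intro r m hrm
    by_cases hr : r = 0
    · exact Or.inl hr
    right
    apply Subtype.ext
    ext P
    have h1 : (r • (m : Γ → Qb)) P = 0 := congrFun (congrArg Subtype.val hrm) P
    rw [Pi.smul_apply, Algebra.smul_def] at h1
    rcases mul_eq_zero.mp h1 with h2 | h2
    · exact absurd (algebraMap_Rl_injective ℓ (by rw [h2, map_zero])) hr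
    · exact h2
  haveI : Module.Free (Rl ℓ) 𝒪.carrier := inferInstance
  let b := Module.finBasis (Rl ℓ) 𝒪.carrier
  refine ⟨_, b, ?_⟩
  apply linearIndependent_of_equivariant act 𝒪.act_surjective
  · intro i σ x
    exact 𝒪.equiv _ (b i).2 σ x
  · rw [← LinearIndependent.iff_fractionRing (Rl ℓ) ℚ]
    exact b.linearIndependent.map' 𝒪.carrier.val.toLinearMap
      (LinearMap.ker_eq_bot.mpr Subtype.val_injective)

omit [Fact ℓ.Prime] in
theorem isIntegral_apply {f : Γ → Qb} (hf : f ∈ 𝒪.carrier) (P : Γ) : IsIntegral (Rl ℓ) (f P) := by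
  haveI : Module.Finite (Rl ℓ) 𝒪.carrier := Module.Finite.iff_fg.mpr 𝒪.fg
  have h1 : IsIntegral (Rl ℓ) (⟨f, hf⟩ : 𝒪.carrier) := Algebra.IsIntegral.isIntegral _
  exact h1.map ((Pi.evalAlgHom (Rl ℓ) (fun _ : Γ => Qb) P).comp 𝒪.carrier.val)

theorem hopfData [Finite Γ] : HopfData (Rl ℓ) Qb 𝒪.carrier.val where
  inj := algebraMap_Rl_injective ℓ
  lat := 𝒪.isLat
  comul := by
    rintro ⟨f, hf⟩
    have key : ∀ F ∈ span₂ 𝒪.carrier, ∃ t : 𝒪.carrier ⊗[Rl ℓ] 𝒪.carrier,
        evT 𝒪.carrier.val 𝒪.carrier.val t = F := by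
      intro F hF
      induction hF using Submodule.span_induction with
      | mem F hF =>
        obtain ⟨a, ha, b, hb, rfl⟩ := hF
        refine ⟨(⟨a, ha⟩ : 𝒪.carrier) ⊗ₜ (⟨b, hb⟩ : 𝒪.carrier), ?_⟩
        ext z
        simp
      | zero => exact ⟨0, map_zero _⟩
      | add F G _ _ hF hG =>
        obtain ⟨t, rfl⟩ := hF
        obtain ⟨u, rfl⟩ := hG
        exact ⟨t + u, map_add _ _ _⟩
      | smul r F _ hF =>
        obtain ⟨t, rfl⟩ := hF
        exact ⟨r • t, map_smul _ _ _⟩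
    obtain ⟨t, ht⟩ := key _ (𝒪.comul f hf)
    exact ⟨t, fun z => congrFun ht z⟩
  counit := by
    rintro ⟨f, hf⟩
    obtain ⟨r, hr⟩ := mem_range_of_fixed (f 0) (fun σ => by
      rw [← 𝒪.equiv f hf σ 0, 𝒪.act_zero])
    have h1 : IsIntegral (Rl ℓ) r := by
      have := 𝒪.isIntegral_apply hf 0
      rw [← hr] at this
      exact (isIntegral_algebraMap_iff (algebraMap ℚ Qb).injective).mp this
    obtain ⟨x, hx⟩ := IsIntegrallyClosed.isIntegral_iff.mp h1
    refine ⟨x, ?_⟩
    show algebraMap (Rl ℓ) Qb x = f 0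
    rw [← hr, ← hx]
    rfl
  anti := by
    rintro ⟨f, hf⟩
    exact ⟨⟨_, 𝒪.anti f hf⟩, fun P => rfl⟩

include 𝒪 in
/-- **main theorem of block H.** -/
theorem hasFFModel [Finite Γ] : HasFFModel ℓ Γ act := by
  have D := 𝒪.hopfData
  haveI : Module.Finite (Rl ℓ) 𝒪.carrier := Module.Finite.iff_fg.mpr 𝒪.fg
  obtain ⟨ι, b, -⟩ := 𝒪.isLat
  haveI : Module.Free (Rl ℓ) 𝒪.carrier := Module.Free.of_basis b
  obtain ⟨e, he1, he2⟩ := D.exists_points (fun P Q h => 𝒪.sep P Q fun f hf => h ⟨f, hf⟩)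
  refine ⟨𝒪.carrier, inferInstance, D.hopf, inferInstance, inferInstance, D.isCocomm, e, he1, ?_⟩
  intro σ f g hfg
  apply 𝒪.sep
  intro a ha
  have h1 := he2 g ⟨a, ha⟩
  have h2 := he2 f ⟨a, ha⟩
  have h3 := hfg ⟨a, ha⟩
  rw [h1, h2] at h3
  rw [𝒪.equiv a ha]
  exact h3

end FunOrder

end Fermat.Agent.S19.H
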