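import Fermat.Agent.S19.H.Hopf

/-! # S19 / H-4 : the points of the Hopf algebra of a lattice of functions on a finite group -/

set_option autoImplicit false

open scoped TensorProduct

noncomputable section

namespace Fermat.Agent.S19.H

variable {R K : Type*} [CommRing R] [Field K] [Algebra R K]
variable {Γ A : Type*} [CommRing A] [Algebra R A]

/-- evaluation at a point. -/
def evP (φ : A →ₐ[R] (Γ → K)) (P : Γ) : A →ₐ[R] K := (Pi.evalAlgHom R (fun _ : Γ => K) P).comp φ

@[simp] theorem evP_apply (φ : A →ₐ[R] (Γ → K)) (P : Γ) (a : A) : evP φ P a = φ a P := rfl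

/-- the `K`-linear extension of `φ`. -/
def phiK (φ : A →ₐ[R] (Γ → K)) : K ⊗[R] A →ₐ[K] (Γ → K) :=
  Algebra.TensorProduct.lift (Algebra.ofId K (Γ → K)) φ (fun _ _ => Commute.all _ _)

theorem phiK_tmul (φ : A →ₐ[R] (Γ → K)) (c : K) (a : A) (P : Γ) :
    phiK φ (c ⊗ₜ a) P = c * φ a P := by
  simp [phiK, Algebra.ofId_apply]

theorem phiK_injective {φ : A →ₐ[R] (Γ → K)} (h : IsLat φ) : Function.Injective (phiK φ) := by
  obtain ⟨ι, b, hb⟩ := h
  have hB : ∀ i, phiK φ (b.baseChange K i) = φ (b i) := by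
    intro i
    ext P
    rw [Module.Basis.baseChange_apply, phiK_tmul, one_mul]
  rw [injective_iff_map_eq_zero]
  intro x hx
  have h1 : phiK φ x = ∑ i ∈ ((b.baseChange K).repr x).support,
      ((b.baseChange K).repr x i) • φ (b i) := by
    conv_lhs => rw [← (b.baseChange K).linearCombination_repr x, Finsupp.linearCombination_apply,
      Finsupp.sum, map_sum]
    refine Finset.sum_congr rfl fun i _ => ?_
    rw [map_smul, hB]
  rw [hx] at h1
  have h2 := linearIndependent_iff'.mp hb _ _ h1.symm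
  apply (b.baseChange K).repr.injective
  ext i
  by_cases hi : i ∈ ((b.baseChange K).repr x).support
  · rw [h2 i hi, map_zero, Finsupp.zero_apply]
  · rw [map_zero, Finsupp.zero_apply]
    exact Finsupp.notMem_support_iff.mp hi

/-- every `R`-algebra homomorphism `A → K` is the evaluation at a point. -/
theorem exists_eq_evP [Finite Γ] {φ : A →ₐ[R] (Γ → K)} (h : IsLat φ) (χ : A →ₐ[R] K) :
    ∃ P, χ = evP φ P := by
  classical
  cases nonempty_fintype Γ
  by_contra hcon
  push Not at hcon
  have h1 : ∀ P, ∃ a, χ a ≠ φ a P := by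
    intro P
    by_contra h2
    push Not at h2
    exact hcon P (AlgHom.ext h2)
  choose a ha using h1
  let χK : K ⊗[R] A →ₐ[K] K :=
    Algebra.TensorProduct.lift (Algebra.ofId K K) χ (fun _ _ => Commute.all _ _)
  let x : K ⊗[R] A := ∏ P : Γ, ((1 : K) ⊗ₜ[R] a P - (φ (a P) P) ⊗ₜ[R] (1 : A))
  have hx : x = 0 := by
    apply phiK_injective h
    rw [map_zero]
    ext P
    rw [map_prod, Finset.prod_apply, Pi.zero_apply]
    apply Finset.prod_eq_zero (Finset.mem_univ P)
    rw [map_sub, Pi.sub_apply, phiK_tmul, phiK_tmul, map_one, Pi.one_apply, one_mul, mul_one,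
      sub_self]
  have h3 : χK x = ∏ P : Γ, (χ (a P) - φ (a P) P) := by
    rw [map_prod]
    refine Finset.prod_congr rfl fun P _ => ?_
    simp [χK]
  rw [hx, map_zero] at h3
  obtain ⟨P, -, hP⟩ := Finset.prod_eq_zero_iff.mp h3.symm
  exact ha P (sub_eq_zero.mp hP)

theorem lift_evP_evP (φ : A →ₐ[R] (Γ → K)) (P Q : Γ) (t : A ⊗[R] A) :
    Algebra.TensorProduct.lift (evP φ P) (evP φ Q) (fun _ _ => Commute.all _ _) t
      = evT φ φ t (P, Q) := by
  induction t using TensorProduct.induction_on with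
  | zero => simp
  | tmul x y => simp
  | add x y hx hy => simp only [map_add, Pi.add_apply, hx, hy]

namespace HopfData

variable [AddCommGroup Γ] {φ : A →ₐ[R] (Γ → K)} (D : HopfData R K φ)

/-- the points of the Hopf algebra are the elements of `Γ`. -/
theorem exists_points [Finite Γ] (hsep : ∀ P Q : Γ, (∀ a, φ a P = φ a Q) → P = Q) :
    letI := D.hopf
    ∃ e : WithConv (A →ₐ[R] K) ≃ Γ, (∀ f g, e (f * g) = e f + e g) ∧
      ∀ f : WithConv (A →ₐ[R] K), ∀ a, f a = φ a (e f) := by
  letI := D.hopf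
  have hbij : Function.Bijective (fun P : Γ => WithConv.toConv (evP φ P)) := by
    constructor
    · intro P Q hPQ
      apply hsep
      intro a
      have := congrArg (fun f : WithConv (A →ₐ[R] K) => f.ofConv a) hPQ
      exact this
    · intro f
      obtain ⟨P, hP⟩ := exists_eq_evP D.lat f.ofConv
      exact ⟨P, WithConv.ext hP.symm⟩
  let e0 := Equiv.ofBijective _ hbij
  have hmul : ∀ P Q : Γ, e0 P * e0 Q = e0 (P + Q) := by
    intro P Q
    apply WithConv.ext
    ext a
    have h1 := AlgHom.convMul_apply (e0 P) (e0 Q) a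
    refine h1.trans ?_
    show Algebra.TensorProduct.lift (evP φ P) (evP φ Q) (fun _ _ => Commute.all _ _)
      (D.comulHom a) = φ a (P + Q)
    rw [lift_evP_evP, D.evT_comulHom]
  refine ⟨e0.symm, ?_, ?_⟩
  · intro f g
    obtain ⟨P, rfl⟩ := e0.surjective f
    obtain ⟨Q, rfl⟩ := e0.surjective g
    rw [hmul, Equiv.symm_apply_apply, Equiv.symm_apply_apply, Equiv.symm_apply_apply]
  · intro f a
    obtain ⟨P, rfl⟩ := e0.surjective f
    rw [Equiv.symm_apply_apply]
    rfl

end HopfData

end Fermat.Agent.S19.H
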