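import Fermat.Agent.S19.Defs

/-! # S19 / H-9 : the ring `𝒮_G(Ω)`   (export (H4)) -/

set_option autoImplicit false
set_option linter.style.haveILetI false

open Polynomial

noncomputable section

namespace Fermat.Agent.S19.H

variable {A : ValuationSubring Qb} {Ω : Type} {act : GQ → Ω → Ω}

theorem isEqFun_one : IsEqFun A act (1 : Ω → Qb) :=
  ⟨fun _ => A.one_mem, fun σ _ => (map_one σ).symm⟩

theorem isEqFun_mul {f g : Ω → Qb} (hf : IsEqFun A act f) (hg : IsEqFun A act g) :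
    IsEqFun A act (f * g) :=
  ⟨fun ω => A.mul_mem _ _ (hf.1 ω) (hg.1 ω), fun σ ω => by
    rw [Pi.mul_apply, Pi.mul_apply, hf.2, hg.2, map_mul]⟩

theorem isEqFun_add {f g : Ω → Qb} (hf : IsEqFun A act f) (hg : IsEqFun A act g) :
    IsEqFun A act (f + g) :=
  ⟨fun ω => A.add_mem _ _ (hf.1 ω) (hg.1 ω), fun σ ω => by
    rw [Pi.add_apply, Pi.add_apply, hf.2, hg.2, map_add]⟩

theorem isEqFun_neg {f : Ω → Qb} (hf : IsEqFun A act f) : IsEqFun A act (-f) :=
  ⟨fun ω => A.neg_mem _ (hf.1 ω), fun σ ω => by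
    rw [Pi.neg_apply, Pi.neg_apply, hf.2, map_neg]⟩

theorem mem_SG_of_isEqFun {f : Ω → Qb} (hf : IsEqFun A act f) : f ∈ SG A act :=
  Submodule.subset_span hf

theorem isEqFun_comp {Ω' : Type} {act' : GQ → Ω' → Ω'} {f : Ω → Qb} (hf : IsEqFun A act f)
    (g : Ω' → Ω) (hg : ∀ σ ω, g (act' σ ω) = act σ (g ω)) : IsEqFun A act' (fun ω => f (g ω)) :=
  ⟨fun ω => hf.1 _, fun σ ω => by
    show f (g (act' σ ω)) = σ (f (g ω))
    rw [hg, hf.2]⟩

theorem one_mem_SG : (1 : Ω → Qb) ∈ SG A act := mem_SG_of_isEqFun isEqFun_one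

theorem mul_mem_SG {f g : Ω → Qb} (hf : f ∈ SG A act) (hg : g ∈ SG A act) :
    f * g ∈ SG A act := by
  induction hf using Submodule.span_induction with
  | mem f hf =>
    induction hg using Submodule.span_induction with
    | mem g hg => exact mem_SG_of_isEqFun (isEqFun_mul hf hg)
    | zero => rw [mul_zero]; exact zero_mem _
    | add g g' _ _ h h' => rw [mul_add]; exact add_mem h h'
    | smul a g _ h => rw [mul_smul_comm]; exact Submodule.smul_mem _ _ h
  | zero => rw [zero_mul]; exact zero_mem _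
  | add f f' _ _ h h' => rw [add_mul]; exact add_mem h h'
  | smul a f _ h => rw [smul_mul_assoc]; exact Submodule.smul_mem _ _ h

/-- `𝒮_G(Ω)` as an `A`-subalgebra of the algebra of functions. -/
def SGalg (A : ValuationSubring Qb) {Ω : Type} (act : GQ → Ω → Ω) : Subalgebra A (Ω → Qb) where
  carrier := SG A act
  mul_mem' := mul_mem_SG
  add_mem' := add_mem
  algebraMap_mem' a := by
    have h : algebraMap A (Ω → Qb) a = a • (1 : Ω → Qb) := Algebra.algebraMap_eq_smul_one a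
    rw [h]
    exact Submodule.smul_mem _ _ one_mem_SG

theorem mem_SGalg {f : Ω → Qb} : f ∈ SGalg A act ↔ f ∈ SG A act := Iff.rfl

theorem const_mem_SG {a : Qb} (ha : a ∈ A) : (fun _ : Ω => a) ∈ SG A act :=
  (SGalg A act).algebraMap_mem ⟨a, ha⟩

theorem smul_mem_SG {a : Qb} (ha : a ∈ A) {f : Ω → Qb} (hf : f ∈ SG A act) :
    a • f ∈ SG A act :=
  Submodule.smul_mem (SG A act) (⟨a, ha⟩ : A) hf

theorem pow_mem_SG {f : Ω → Qb} (hf : f ∈ SG A act) (n : ℕ) : f ^ n ∈ SG A act :=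
  (SGalg A act).pow_mem hf n

theorem sum_mem_SG {ι : Type*} (s : Finset ι) (f : ι → Ω → Qb) (hf : ∀ i ∈ s, f i ∈ SG A act) :
    ∑ i ∈ s, f i ∈ SG A act := Submodule.sum_mem _ hf

theorem prod_mem_SG {ι : Type*} (s : Finset ι) (f : ι → Ω → Qb) (hf : ∀ i ∈ s, f i ∈ SG A act) :
    ∏ i ∈ s, f i ∈ SG A act := (SGalg A act).prod_mem hf

theorem apply_mem_of_mem_SG {f : Ω → Qb} (hf : f ∈ SG A act) (ω : Ω) : f ω ∈ A := by
  induction hf using Submodule.span_induction with
  | mem f hf => exact hf.1 ω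
  | zero => exact A.zero_mem
  | add f g _ _ h h' => exact A.add_mem _ _ h h'
  | smul a f _ h => exact A.mul_mem _ _ a.2 h

/-- pull back along an equivariant map (in particular: restriction to a stable subset). -/
theorem comp_mem_SG {Ω' : Type} {act' : GQ → Ω' → Ω'} {f : Ω → Qb} (hf : f ∈ SG A act)
    (g : Ω' → Ω) (hg : ∀ σ ω, g (act' σ ω) = act σ (g ω)) : (fun ω => f (g ω)) ∈ SG A act' := by
  induction hf using Submodule.span_induction with
  | mem f hf => exact mem_SG_of_isEqFun (isEqFun_comp hf g hg)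
  | zero => exact zero_mem _
  | add f f' _ _ h h' => exact add_mem h h'
  | smul a f _ h => exact Submodule.smul_mem _ a h

/-- a unit valued element of `𝒮_G(Ω)` is a unit of `𝒮_G(Ω)`. -/
theorem inv_mem_SG [Finite Ω] {f : Ω → Qb} (hf : f ∈ SG A act) (h0 : ∀ ω, f ω ≠ 0)
    (hu : ∀ ω, (f ω)⁻¹ ∈ A) : (fun ω => (f ω)⁻¹) ∈ SG A act := by
  classical
  haveI := Fintype.ofFinite Ω
  have hfA := apply_mem_of_mem_SG hf
  set p : A[X] := ∏ ω, (X - C (⟨f ω, hfA ω⟩ : A)) with hp
  have hp0 : aeval f p = 0 := by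
    ext ω
    have h1 : (aeval f p) ω = aeval (f ω) p := by
      have := Polynomial.aeval_algHom_apply (Pi.evalAlgHom A (fun _ : Ω => Qb) ω) f p
      exact this.symm
    rw [h1, hp, map_prod, Pi.zero_apply]
    apply Finset.prod_eq_zero (Finset.mem_univ ω)
    simp only [map_sub, aeval_X, aeval_C]
    exact sub_self _
  have hc0 : ((p.coeff 0 : A) : Qb) = ∏ ω, (- f ω) := by
    rw [coeff_zero_eq_eval_zero, hp, eval_prod]
    simp
  set u : Qb := ∏ ω, (- f ω) with hu'
  have hu0 : u ≠ 0 := Finset.prod_ne_zero_iff.mpr fun ω _ => neg_ne_zero.mpr (h0 ω)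
  have huinv : u⁻¹ ∈ A := by
    rw [hu', ← Finset.prod_inv_distrib]
    apply Subring.prod_mem A.toSubring
    intro ω _
    rw [inv_neg]
    exact A.neg_mem _ (hu ω)
  have h2 : aeval f p.divX * f + algebraMap A (Ω → Qb) (p.coeff 0) = 0 := by
    rw [← hp0]
    conv_rhs => rw [← divX_mul_X_add p]
    simp
  have h3 : aeval f p.divX ∈ SG A act := by
    have : aeval f p.divX ∈ Algebra.adjoin A {f} := aeval_mem_adjoin_singleton _ _
    exact (Algebra.adjoin_le (S := SGalg A act) (Set.singleton_subset_iff.mpr hf)) this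
  have h4 : (fun ω => (f ω)⁻¹) = (-u⁻¹) • aeval f p.divX := by
    ext ω
    have h5 := congrFun h2 ω
    rw [Pi.add_apply, Pi.mul_apply, Pi.zero_apply] at h5
    have h6 : (algebraMap A (Ω → Qb) (p.coeff 0)) ω = u := hc0
    rw [h6] at h5
    rw [Pi.smul_apply, smul_eq_mul]
    have h7 := h0 ω
    field_simp
    linear_combination h5
  rw [h4]
  exact smul_mem_SG (A.neg_mem _ huinv) h3

end Fermat.Agent.S19.H
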